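/-
Programme TW (S56), sub-programme C (Greenberg–Wiles), brick C1, slice LD1-4 (helper5).

`locPair_left` BY COUNTING, abstract form.  Setting (that of `TW/LEulDual74`, `Tate62/ChiAdditive`):
a group `G` with a level basis `𝓑`, a field `k`, a level character `ε : G →* kˣ`,
`X^* := X.dualTwist ε`, level cohomology `H1 𝓑 X` of `PT/PRO/LevelCoh28`.

* `finrank_le_of_right_kernel`, `left_kernel_of_chain` : pure linear algebra
  (`V₂ ↪ V₁^*`, `V₃ ↪ V₂^*`, `V₁ ≃ V₃`  ⇒  `dim V₁ = dim V₂` and `V₁ ↪ V₂^*`);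
* `mapH1_comp`, `mapH1_id`, `mapH1Equiv` : an equivariant linear equivalence induces a linear
  equivalence on `H¹`;
* `ddualEquiv`, `ddualEquiv_ρ`, `ddualH1` : `X ≃ (X^*)^*` (evaluation), equivariant, and
  `H¹(X) ≃ H¹((X^*)^*)`;
* `left_of_right` : a family of pairings `H¹(X) × H¹(X^*) → k` with trivial RIGHT kernels (for all
  finite-dimensional discrete `X`) has trivial LEFT kernel at every `X` with `H¹(X)` finite
  dimensional, and then `dim H¹(X) = dim H¹(X^*)` (no naturality needed).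
-/
import Mathlib
import Fermat.Prelude.Def_GroupCohomology_Selmer
import Fermat.Agent.TW.Tate62.ChiAdditive

set_option autoImplicit false
set_option linter.unusedSectionVars false

universe u

open Module

namespace Fermat.Agent.TW.GWLocLeft5.Abstract

open Fermat.Agent.PT.PRO.LevelCoh28 Fermat.Agent.TW.Tate62.ChiAdditive

/-! ### Linear algebra -/

section LinAlg

variable {k : Type*} [Field k] {V₁ V₂ V₃ : Type*}
  [AddCommGroup V₁] [Module k V₁] [AddCommGroup V₂] [Module k V₂] [AddCommGroup V₃] [Module k V₃]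

/-- A pairing with trivial right kernel embeds the right space into the dual of the left one. -/
theorem flip_injective_of_right_kernel (B : V₁ →ₗ[k] V₂ →ₗ[k] k)
    (hr : ∀ y, (∀ x, B x y = 0) → y = 0) : Function.Injective B.flip := by
  intro y y' h
  rw [← sub_eq_zero]
  apply hr
  intro x
  have := congrArg (fun φ : V₁ →ₗ[k] k => φ x) h
  simp only [LinearMap.flip_apply] at this
  rw [map_sub, this, sub_self]

/-- A pairing with trivial right kernel and finite-dimensional left space: the right space is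
finite-dimensional of dimension at most that of the left space. -/
theorem finrank_le_of_right_kernel [FiniteDimensional k V₁] (B : V₁ →ₗ[k] V₂ →ₗ[k] k)
    (hr : ∀ y, (∀ x, B x y = 0) → y = 0) :
    FiniteDimensional k V₂ ∧ finrank k V₂ ≤ finrank k V₁ := by
  have hinj := flip_injective_of_right_kernel B hr
  have hfin : FiniteDimensional k V₂ := FiniteDimensional.of_injective B.flip hinj
  refine ⟨hfin, ?_⟩
  have := LinearMap.finrank_le_finrank_of_injective hinj
  rwa [Subspace.dual_finrank_eq] at this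

/-- **Left kernel by counting.**  `B₁ : V₁ × V₂ → k` and `B₂ : V₂ × V₃ → k` with trivial right
kernels, `V₁` finite-dimensional and `V₁ ≃ V₃`: then `dim V₁ = dim V₂` and the left kernel of `B₁`
is trivial. -/
theorem left_kernel_of_chain [FiniteDimensional k V₁] (B₁ : V₁ →ₗ[k] V₂ →ₗ[k] k)
    (B₂ : V₂ →ₗ[k] V₃ →ₗ[k] k) (hr₁ : ∀ y, (∀ x, B₁ x y = 0) → y = 0)
    (hr₂ : ∀ z, (∀ y, B₂ y z = 0) → z = 0) (e : V₁ ≃ₗ[k] V₃) :
    FiniteDimensional k V₂ ∧ finrank k V₁ = finrank k V₂ ∧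
      ∀ x, (∀ y, B₁ x y = 0) → x = 0 := by
  obtain ⟨hfin₂, hle₂⟩ := finrank_le_of_right_kernel B₁ hr₁
  obtain ⟨hfin₃, hle₃⟩ := finrank_le_of_right_kernel B₂ hr₂
  have he : finrank k V₁ = finrank k V₃ := e.finrank_eq
  have hdim : finrank k V₁ = finrank k V₂ := le_antisymm (he ▸ hle₃) hle₂
  refine ⟨hfin₂, hdim, fun x hx => ?_⟩
  have hinj := flip_injective_of_right_kernel B₁ hr₁
  have hsurj : Function.Surjective B₁.flip := by
    have : finrank k V₂ = finrank k (Dual k V₁) := by rw [Subspace.dual_finrank_eq, hdim]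
    exact (LinearMap.injective_iff_surjective_of_finrank_eq_finrank this).1 hinj
  rw [← Module.forall_dual_apply_eq_zero_iff k x]
  intro φ
  obtain ⟨y, rfl⟩ := hsurj φ
  rw [LinearMap.flip_apply]
  exact hx y

end LinAlg

variable {k G : Type u} [Field k] [Group G]

/-! ### Functoriality of `H¹` for equivalences -/

section MapEquiv

variable {𝓑 : LevelBasis G} {A B C : Rep.{u} k G}

theorem mapH1_comp (φ : A →ₗ[k] B) (hφ : ∀ g a, φ (A.ρ g a) = B.ρ g (φ a))
    (ψ : B →ₗ[k] C) (hψ : ∀ g b, ψ (B.ρ g b) = C.ρ g (ψ b)) (x : H1 𝓑 A) :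
    mapH1 (𝓑 := 𝓑) ψ hψ (mapH1 (𝓑 := 𝓑) φ hφ x) =
      mapH1 (𝓑 := 𝓑) (ψ ∘ₗ φ) (fun g a => by
        rw [LinearMap.comp_apply, LinearMap.comp_apply, hφ, hψ]) x := by
  obtain ⟨c, rfl⟩ := H1mk_surjective 𝓑 A x
  rfl

theorem mapH1_congr {φ φ' : A →ₗ[k] B} (h : φ = φ') (hφ : ∀ g a, φ (A.ρ g a) = B.ρ g (φ a))
    (hφ' : ∀ g a, φ' (A.ρ g a) = B.ρ g (φ' a)) (x : H1 𝓑 A) :
    mapH1 (𝓑 := 𝓑) φ hφ x = mapH1 (𝓑 := 𝓑) φ' hφ' x := by
  subst h
  rfl

theorem mapH1_id (x : H1 𝓑 A) :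
    mapH1 (𝓑 := 𝓑) (LinearMap.id : A →ₗ[k] A) (fun _ _ => rfl) x = x := by
  obtain ⟨c, rfl⟩ := H1mk_surjective 𝓑 A x
  rfl

theorem symm_equivariant (e : A ≃ₗ[k] B) (he : ∀ g a, e (A.ρ g a) = B.ρ g (e a)) (g : G) (b : B) :
    e.symm (B.ρ g b) = A.ρ g (e.symm b) := by
  apply e.injective
  rw [he, e.apply_symm_apply, e.apply_symm_apply]

/-- An equivariant linear equivalence induces a linear equivalence on `H¹`. -/
noncomputable def mapH1Equiv (e : A ≃ₗ[k] B) (he : ∀ g a, e (A.ρ g a) = B.ρ g (e a)) :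
    H1 𝓑 A ≃ₗ[k] H1 𝓑 B :=
  LinearEquiv.ofLinearMap (mapH1 (𝓑 := 𝓑) (e : A →ₗ[k] B) he)
    (mapH1 (𝓑 := 𝓑) (e.symm : B →ₗ[k] A) (symm_equivariant e he))
    (by
      apply LinearMap.ext
      intro x
      rw [LinearMap.comp_apply, mapH1_comp, LinearMap.id_apply]
      rw [mapH1_congr (φ' := LinearMap.id) (by ext b; simp) _ (fun _ _ => rfl), mapH1_id])
    (by
      apply LinearMap.ext
      intro x
      rw [LinearMap.comp_apply, mapH1_comp, LinearMap.id_apply]
      rw [mapH1_congr (φ' := LinearMap.id) (by ext b; simp) _ (fun _ _ => rfl), mapH1_id])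

@[simp]
theorem mapH1Equiv_apply (e : A ≃ₗ[k] B) (he : ∀ g a, e (A.ρ g a) = B.ρ g (e a)) (x : H1 𝓑 A) :
    mapH1Equiv (𝓑 := 𝓑) e he x = mapH1 (𝓑 := 𝓑) (e : A →ₗ[k] B) he x := rfl

@[simp]
theorem mapH1Equiv_symm_apply (e : A ≃ₗ[k] B) (he : ∀ g a, e (A.ρ g a) = B.ρ g (e a))
    (y : H1 𝓑 B) :
    (mapH1Equiv (𝓑 := 𝓑) e he).symm y =
      mapH1 (𝓑 := 𝓑) (e.symm : B →ₗ[k] A) (symm_equivariant e he) y := rfl

end MapEquiv

/-! ### The double dual -/

section DoubleDual

variable (ε : G →* kˣ) (X : Rep.{u} k G) [FiniteDimensional k X]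

instance finiteDimensional_dualTwist : FiniteDimensional k (X.dualTwist ε) :=
  inferInstanceAs (FiniteDimensional k (Module.Dual k X))

/-- Evaluation `X ≃ (X^*)^*`. -/
noncomputable def ddualEquiv : X ≃ₗ[k] ((X.dualTwist ε).dualTwist ε) :=
  Module.evalEquiv k X

theorem ddualEquiv_apply (x : X) (f : Module.Dual k X) : ddualEquiv ε X x f = f x := rfl

theorem ddualEquiv_ρ (g : G) (x : X) :
    ddualEquiv ε X (X.ρ g x) = ((X.dualTwist ε).dualTwist ε).ρ g (ddualEquiv ε X x) := by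
  apply LinearMap.ext
  intro f
  rw [Rep.dualTwist_ρ_apply]
  change f (X.ρ g x) = (ε g : k) • (ddualEquiv ε X x) ((X.dualTwist ε).ρ g⁻¹ f)
  rw [Rep.dualTwist_ρ_apply, map_smul, ddualEquiv_apply, LinearMap.comp_apply, inv_inv, smul_smul,
    map_inv, Units.mul_inv, one_smul]

variable (𝓑 : LevelBasis G)

/-- `H¹(X) ≃ H¹((X^*)^*)`. -/
noncomputable def ddualH1 : H1 𝓑 X ≃ₗ[k] H1 𝓑 ((X.dualTwist ε).dualTwist ε) :=
  mapH1Equiv (ddualEquiv ε X) (ddualEquiv_ρ ε X)

end DoubleDual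

/-! ### Left kernels from right kernels -/

section Main

variable {𝓑 : LevelBasis G} {ε : G →* kˣ}

/-- **`locPair_left` by counting** (abstract form): a family of pairings
`H¹(X) × H¹(X^*) → k` whose RIGHT kernels are trivial for all finite-dimensional discrete `X`.
If `H¹(X)` is finite-dimensional, then so is `H¹(X^*)`, the dimensions agree, and the LEFT kernel
at `X` is trivial. -/
theorem left_of_right (hε : IsLevelChar 𝓑.sets ε)
    (pair : ∀ X : Rep.{u} k G, H1 𝓑 X →ₗ[k] H1 𝓑 (X.dualTwist ε) →ₗ[k] k)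
    (right : ∀ X : Rep.{u} k G, FiniteDimensional k X → IsDiscrete 𝓑.sets X →
      ∀ y, (∀ x, pair X x y = 0) → y = 0)
    (X : Rep.{u} k G) [FiniteDimensional k X] (hX : IsDiscrete 𝓑.sets X)
    [FiniteDimensional k (H1 𝓑 X)] :
    FiniteDimensional k (H1 𝓑 (X.dualTwist ε)) ∧
      finrank k (H1 𝓑 X) = finrank k (H1 𝓑 (X.dualTwist ε)) ∧
      ∀ x, (∀ y, pair X x y = 0) → x = 0 :=
  left_kernel_of_chain (pair X) (pair (X.dualTwist ε)) (right X inferInstance hX)
    (right (X.dualTwist ε) inferInstance (isDiscrete_dualTwist 𝓑.isBasis hε hX))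
    (ddualH1 ε X 𝓑)

end Main

end Fermat.Agent.TW.GWLocLeft5.Abstract
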