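/-
Programme TW (S56), sub-programme C (Greenberg–Wiles), slice LD1-4 (helper5), local instance.

The abstract results of `GWLocLeft5/Abstract` at the local datum
`Gq = primeLocalGaloisGroup q`, `Bq = pullBasis (primeLocalToGlobal q)`,
`chiq = (cycloChar p).comp (primeLocalToGlobal q)` over `ZMod p`:

* `chiLoc`, `isLevelChar_chiLoc` (more generally `isLevelChar_comp` for any `r : G →* Γ`);
* `res_dualTwist_ρ`, `resDualEquiv`, `resDualH1` : `Rep.res r (M^*)` and `(Rep.res r M)^*` have the
  same carrier and (propositionally, NOT definitionally) the same action; the identity induces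
  `H¹(Rep.res r (M^*)) ≃ H¹((Rep.res r M)^*)`;
* `isDiscrete_dualTwist_loc`;
* `locPair_left` : left kernel + equality of dimensions of a right-nondegenerate family of local
  pairings, given finiteness of `H¹(N)`;
* `ddualH1Loc` : `H¹(N) ≃ H¹(N^**)`.
-/
import Mathlib
import Fermat.Agent.TW.GWLocLeft5.Abstract
import Fermat.Agent.PT.BR.DualTwist7
import Fermat.Agent.PT.BR.LevelBridge13

set_option autoImplicit false
set_option linter.unusedSectionVars false

open ExtCitation Module

namespace Fermat.Agent.TW.GWLocLeft5.Local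

open Fermat.Agent.PT.PRO Fermat.Agent.PT.PRO.LevelCoh28 Fermat.Agent.PT.BR.LevelBridge13
open Fermat.Agent.TW.Tate62.ChiAdditive Fermat.Agent.TW.GWLocLeft5.Abstract
open Fermat.Agent.S14.Fields (Kz)

local notation "Γ" => (AlgebraicClosure ℚ ≃ₐ[ℚ] AlgebraicClosure ℚ)

variable {p : ℕ} [Fact p.Prime]

/-! ### The cyclotomic character is a level character of every pulled-back basis -/

section Pull

variable {G : Type} [Group G] (r : G →* Γ)

/-- The mod `p` cyclotomic character pulled back along `r : G →* Γ` is trivial on the member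
`r⁻¹ Gal(ℚ̄/ℚ(ζ_p))` of the pulled-back basis. -/
theorem isLevelChar_comp : IsLevelChar (pullBasis r).sets ((cycloChar p).comp r) :=
  ⟨_, ⟨Kz p, inferInstance, rfl⟩, fun _ hs =>
    Fermat.Agent.PT.BR.DualTwist7.cycloChar_eq_one_of_mem_fixingSubgroup_Kz p hs⟩

/-- Restriction commutes with the twisted dual, on the level of the actions (NOT definitionally:
`r g⁻¹` versus `(r g)⁻¹`). -/
theorem res_dualTwist_ρ (M : Rep.{0} (ZMod p) Γ) (g : G) :
    (Rep.res r (M.dualTwist (cycloChar p))).ρ g =
      ((Rep.res r M).dualTwist ((cycloChar p).comp r)).ρ g := by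
  apply LinearMap.ext
  intro f
  change (M.dualTwist (cycloChar p)).ρ (r g) f = _
  rw [Rep.dualTwist_ρ_apply, Rep.dualTwist_ρ_apply]
  change _ = (cycloChar p (r g) : ZMod p) • (f ∘ₗ M.ρ (r g⁻¹))
  rw [map_inv r g]

/-- The identity, as an equivalence
`Rep.res r (M^*) ≃ (Rep.res r M)^*` (`^*` = twisted dual w.r.t. the cyclotomic character, resp. its
pull-back). -/
noncomputable def resDualEquiv (M : Rep.{0} (ZMod p) Γ) :
    (Rep.res r (M.dualTwist (cycloChar p))) ≃ₗ[ZMod p]
      ((Rep.res r M).dualTwist ((cycloChar p).comp r)) :=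
  LinearEquiv.refl (ZMod p) (Module.Dual (ZMod p) M)

theorem resDualEquiv_apply (M : Rep.{0} (ZMod p) Γ) (f : Module.Dual (ZMod p) M) :
    resDualEquiv r M f = f := rfl

theorem resDualEquiv_ρ (M : Rep.{0} (ZMod p) Γ) (g : G)
    (f : Rep.res r (M.dualTwist (cycloChar p))) :
    resDualEquiv r M ((Rep.res r (M.dualTwist (cycloChar p))).ρ g f) =
      ((Rep.res r M).dualTwist ((cycloChar p).comp r)).ρ g (resDualEquiv r M f) := by
  rw [res_dualTwist_ρ]
  rfl

/-- `H¹(G, Rep.res r (M^*)) ≃ H¹(G, (Rep.res r M)^*)` for every level basis of `G`. -/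
noncomputable def resDualH1 (𝓑 : LevelBasis G) (M : Rep.{0} (ZMod p) Γ) :
    H1 𝓑 (Rep.res r (M.dualTwist (cycloChar p))) ≃ₗ[ZMod p]
      H1 𝓑 ((Rep.res r M).dualTwist ((cycloChar p).comp r)) :=
  mapH1Equiv (resDualEquiv r M) (resDualEquiv_ρ r M)

end Pull

/-! ### The local datum at `q` -/

section Local

variable (p) (q : Nat.Primes)

/-- The local mod `p` cyclotomic character at `q`. -/
noncomputable abbrev chiLoc : primeLocalGaloisGroup q →* (ZMod p)ˣ :=
  (cycloChar p).comp (primeLocalToGlobal q)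

variable {p}

theorem isLevelChar_chiLoc :
    IsLevelChar (pullBasis (primeLocalToGlobal q)).sets (chiLoc p q) :=
  isLevelChar_comp (primeLocalToGlobal q)

variable (N : Rep.{0} (ZMod p) (primeLocalGaloisGroup q)) [FiniteDimensional (ZMod p) N]

theorem isDiscrete_dualTwist_loc
    (hN : IsDiscrete (pullBasis (primeLocalToGlobal q)).sets N) :
    IsDiscrete (pullBasis (primeLocalToGlobal q)).sets (N.dualTwist (chiLoc p q)) :=
  isDiscrete_dualTwist (pullBasis (primeLocalToGlobal q)).isBasis (isLevelChar_chiLoc q) hN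

/-- `H¹(ℚ_q, N) ≃ H¹(ℚ_q, N^**)`. -/
noncomputable def ddualH1Loc :
    H1 (pullBasis (primeLocalToGlobal q)) N ≃ₗ[ZMod p]
      H1 (pullBasis (primeLocalToGlobal q)) ((N.dualTwist (chiLoc p q)).dualTwist (chiLoc p q)) :=
  ddualH1 (chiLoc p q) N (pullBasis (primeLocalToGlobal q))

/-- **`locPair_left` by counting**: a family of local pairings
`H¹(ℚ_q, N) × H¹(ℚ_q, N^*) → 𝔽_p` whose right kernels are trivial for all finite-dimensional
discrete `N`.  If `H¹(ℚ_q, N)` is finite, then so is `H¹(ℚ_q, N^*)`, the dimensions agree and the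
left kernel at `N` is trivial. -/
theorem locPair_left
    (locPair : ∀ N : Rep.{0} (ZMod p) (primeLocalGaloisGroup q),
      H1 (pullBasis (primeLocalToGlobal q)) N →ₗ[ZMod p]
        H1 (pullBasis (primeLocalToGlobal q)) (N.dualTwist (chiLoc p q)) →ₗ[ZMod p] ZMod p)
    (locPair_right : ∀ N : Rep.{0} (ZMod p) (primeLocalGaloisGroup q),
      FiniteDimensional (ZMod p) N → IsDiscrete (pullBasis (primeLocalToGlobal q)).sets N →
      ∀ y, (∀ x, locPair N x y = 0) → y = 0)
    (hN : IsDiscrete (pullBasis (primeLocalToGlobal q)).sets N)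
    [FiniteDimensional (ZMod p) (H1 (pullBasis (primeLocalToGlobal q)) N)] :
    FiniteDimensional (ZMod p)
        (H1 (pullBasis (primeLocalToGlobal q)) (N.dualTwist (chiLoc p q))) ∧
      finrank (ZMod p) (H1 (pullBasis (primeLocalToGlobal q)) N) =
        finrank (ZMod p) (H1 (pullBasis (primeLocalToGlobal q)) (N.dualTwist (chiLoc p q))) ∧
      ∀ x, (∀ y, locPair N x y = 0) → x = 0 :=
  left_of_right (isLevelChar_chiLoc q) locPair locPair_right N hN

end Local

end Fermat.Agent.TW.GWLocLeft5.Local
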