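/-
Programme TW (S56), sub-programme C (Greenberg–Wiles), helper5.

GENERIC transport of the `(1,1)` pairing of `PT/PRO/ExtPairing4` / `PairP4`
  `pair11P : ℍ¹(Y) →+ H¹_lev(M) →+ H²_lev(C)[p]`
along arbitrary comparison maps `c : X →+ ℍ¹(Y)`, `e : Z →+ H¹_lev(M)` and an invariant
`τ : H²_lev(C)[p] →+ ℤ/p`.  Everything is stated for an ARBITRARY pairing datum `B : Pairing Y P ρC`
so that concrete instances (huge terms) are instantiated only once, by a single `exact`.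

* `pairG`, `pairG_apply`, `coe_pairG`, `pairG_right_kernel`, `pairG_left_kernel`;
* `pairL` (the `ZMod p`-bilinear form `τ ∘ pairG`), `pairL_apply`, `pairL_eq_zero_iff`,
  `pairL_right_kernel`;
* `pairG_natural`, `pairL_natural` : naturality along a `PairingHom` with `γ = id`.
-/
import Mathlib
import Fermat.Agent.PT.PRO.PairP4

set_option autoImplicit false
set_option linter.unusedSectionVars false

namespace Fermat.Agent.TW.GWLocLeft5.PairGen

open Function Fermat.Agent.PT.PRO Fermat.Agent.PT.PRO.HyperLevel25 Fermat.Agent.PT.PRO.Resolved4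
  Fermat.Agent.PT.PRO.ExtPairing4 Fermat.Agent.PT.PRO.ExtPairingB4
  Fermat.Agent.PT.PRO.InvP4 Fermat.Agent.PT.PRO.PairP4

variable {k G : Type*} [CommRing k] [Group G] {𝒰 : Set (Subgroup G)}
variable {Y0 Y1 P1 P0 M C : Type*}
  [AddCommGroup Y0] [Module k Y0] [AddCommGroup Y1] [Module k Y1]
  [AddCommGroup P1] [Module k P1] [AddCommGroup P0] [Module k P0]
  [AddCommGroup M] [Module k M] [AddCommGroup C] [Module k C]
variable {Y : Cx k 𝒰 Y0 Y1} {P : Resolved k 𝒰 P1 P0 M} {ρC : Representation k G C}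
variable (B : Pairing Y P ρC) (h𝒰 : IsLevelBasis 𝒰) (hC : IsDiscrete 𝒰 ρC)
variable {p : ℕ} (hpM : ∀ m : M, p • m = 0)
variable {X Z : Type*} [AddCommGroup X] [AddCommGroup Z]
  (c : X →+ Y.ℍ1 h𝒰) (e : Z →+ Hlev1 h𝒰 P.ρM P.discM)

/-! ### The transported pairing with values in `H²_lev(C)[p]` -/

/-- The pairing `pair11P` transported along `c` and `e`. -/
noncomputable def pairG : X →+ Z →+ pTor p (Hlev2 h𝒰 ρC hC) :=
  ((pair11P B h𝒰 hC hpM).comp c).compl₂ e

theorem pairG_apply (x : X) (z : Z) :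
    pairG B h𝒰 hC hpM c e x z = pair11P B h𝒰 hC hpM (c x) (e z) := rfl

theorem coe_pairG (x : X) (z : Z) :
    ((pairG B h𝒰 hC hpM c e x z : pTor p (Hlev2 h𝒰 ρC hC)) : Hlev2 h𝒰 ρC hC) =
      pair11 B h𝒰 hC (c x) (e z) :=
  coe_pair11P B h𝒰 hC hpM (c x) (e z)

theorem pairG_eq_zero_iff (x : X) (z : Z) :
    pairG B h𝒰 hC hpM c e x z = 0 ↔ pair11 B h𝒰 hC (c x) (e z) = 0 :=
  pair11P_eq_zero_iff B h𝒰 hC hpM (c x) (e z)

/-- Right kernel: from the right kernel of `pair11`, `c` surjective, `e` injective. -/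
theorem pairG_right_kernel (hc : Surjective c) (he : Injective e)
    (hR : ∀ y : Hlev1 h𝒰 P.ρM P.discM, (∀ ξ, pair11 B h𝒰 hC ξ y = 0) → y = 0)
    (z : Z) (h : ∀ x, pairG B h𝒰 hC hpM c e x z = 0) : z = 0 := by
  have h1 : e z = 0 := by
    refine hR (e z) (fun ξ => ?_)
    obtain ⟨x, rfl⟩ := hc ξ
    exact (pairG_eq_zero_iff B h𝒰 hC hpM c e x z).1 (h x)
  exact he (h1.trans (map_zero e).symm)

/-- Left kernel: from the left kernel of `pair11`, `c` injective, `e` surjective. -/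
theorem pairG_left_kernel (hc : Injective c) (he : Surjective e)
    (hL : ∀ ξ : Y.ℍ1 h𝒰, (∀ y, pair11 B h𝒰 hC ξ y = 0) → ξ = 0)
    (x : X) (h : ∀ z, pairG B h𝒰 hC hpM c e x z = 0) : x = 0 := by
  have h1 : c x = 0 := by
    refine hL (c x) (fun y => ?_)
    obtain ⟨z, rfl⟩ := he y
    exact (pairG_eq_zero_iff B h𝒰 hC hpM c e x z).1 (h z)
  exact hc (h1.trans (map_zero c).symm)

/-! ### The `ZMod p`-bilinear form `τ ∘ pairG` -/

section Linear

variable [Fact p.Prime] [Module (ZMod p) X] [Module (ZMod p) Z]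
  (τ : pTor p (Hlev2 h𝒰 ρC hC) →+ ZMod p)

/-- The `ZMod p`-bilinear form `τ ∘ pairG`. -/
noncomputable def pairL : X →ₗ[ZMod p] Z →ₗ[ZMod p] ZMod p :=
  AddMonoidHom.toZModLinearMap p
    { toFun := fun x => AddMonoidHom.toZModLinearMap p (τ.comp (pairG B h𝒰 hC hpM c e x))
      map_zero' := by
        apply LinearMap.ext
        intro z
        show τ (pairG B h𝒰 hC hpM c e 0 z) = 0
        rw [map_zero, AddMonoidHom.zero_apply, map_zero]
      map_add' := fun x x' => by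
        apply LinearMap.ext
        intro z
        show τ (pairG B h𝒰 hC hpM c e (x + x') z) =
          τ (pairG B h𝒰 hC hpM c e x z) + τ (pairG B h𝒰 hC hpM c e x' z)
        rw [map_add, AddMonoidHom.add_apply, map_add] }

theorem pairL_apply (x : X) (z : Z) :
    pairL B h𝒰 hC hpM c e τ x z = τ (pairG B h𝒰 hC hpM c e x z) := rfl

theorem pairL_eq_zero_iff (hτ : Injective τ) (x : X) (z : Z) :
    pairL B h𝒰 hC hpM c e τ x z = 0 ↔ pair11 B h𝒰 hC (c x) (e z) = 0 := by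
  rw [pairL_apply, ← pairG_eq_zero_iff B h𝒰 hC hpM c e x z]
  constructor
  · intro h
    exact hτ (h.trans (map_zero τ).symm)
  · intro h
    rw [h, map_zero]

theorem pairL_right_kernel (hτ : Injective τ) (hc : Surjective c) (he : Injective e)
    (hR : ∀ y : Hlev1 h𝒰 P.ρM P.discM, (∀ ξ, pair11 B h𝒰 hC ξ y = 0) → y = 0)
    (z : Z) (h : ∀ x, pairL B h𝒰 hC hpM c e τ x z = 0) : z = 0 :=
  pairG_right_kernel B h𝒰 hC hpM c e hc he hR z (fun x =>
    (pairG_eq_zero_iff B h𝒰 hC hpM c e x z).2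
      ((pairL_eq_zero_iff B h𝒰 hC hpM c e τ hτ x z).1 (h x)))

end Linear

/-! ### Naturality -/

section Natural

variable {Y0' Y1' P1' P0' M' : Type*}
  [AddCommGroup Y0'] [Module k Y0'] [AddCommGroup Y1'] [Module k Y1']
  [AddCommGroup P1'] [Module k P1'] [AddCommGroup P0'] [Module k P0']
  [AddCommGroup M'] [Module k M']
variable {Y' : Cx k 𝒰 Y0' Y1'} {P' : Resolved k 𝒰 P1' P0' M'}
variable {B} (B' : Pairing Y' P' ρC) (hpM' : ∀ m : M', p • m = 0)
variable {X' Z' : Type*} [AddCommGroup X'] [AddCommGroup Z']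
  (c' : X' →+ Y'.ℍ1 h𝒰) (e' : Z' →+ Hlev1 h𝒰 P'.ρM P'.discM)
variable (F : PairingHom B B')
  (hγ : ∀ w : Hlev2 h𝒰 ρC hC, (lvlHom h𝒰 hC hC F.γ F.hγ).mapH2 w = w)
  (f : X → X') (g : Z' → Z)
  (hcf : ∀ x, c' (f x) = F.a.mapℍ1 h𝒰 (c x))
  (heg : ∀ z', e (g z') = (lvlHom h𝒰 P'.discM P.discM F.b.φM F.b.commM).mapH1 (e' z'))

include hγ hcf heg in
/-- **Naturality of the transported pairing** along a morphism of pairing data with `γ = id` on
`H²`. -/
theorem pairG_natural (x : X) (z' : Z') :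
    pairG B' h𝒰 hC hpM' c' e' (f x) z' = pairG B h𝒰 hC hpM c e x (g z') := by
  apply Subtype.ext
  rw [coe_pairG, coe_pairG, hcf, heg, pair11_natural h𝒰 hC hC F (c x) (e' z'), hγ]

include hγ hcf heg in
theorem pairL_natural [Fact p.Prime] [Module (ZMod p) X] [Module (ZMod p) Z]
    [Module (ZMod p) X'] [Module (ZMod p) Z'] (τ : pTor p (Hlev2 h𝒰 ρC hC) →+ ZMod p)
    (x : X) (z' : Z') :
    pairL B' h𝒰 hC hpM' c' e' τ (f x) z' = pairL B h𝒰 hC hpM c e τ x (g z') := by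
  rw [pairL_apply, pairL_apply,
    pairG_natural h𝒰 hC hpM c e B' hpM' c' e' F hγ f g hcf heg x z']

end Natural

end Fermat.Agent.TW.GWLocLeft5.PairGen
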